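import Fermat.Agent.RED.Deuring.Basic
import Fermat.Prelude.Def_AlgebraicCurve_BaseChangeGalois

/-!
# GAL / ESDirect : unramifiedness and the Eichler–Shimura relation on torsion, abstract form

Let `R` be a constant reduction of a function field `F / K` and assume the *function level Kummer
injectivity* `KOne R m`: a function `w` with `red w = 1` all of whose orders are divisible by `m` is
an `m`-th power.  Then

* a semilinear automorphism `g` of `F` which preserves the Gauss ring and acts trivially on the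
  residue field fixes every `m`-torsion class of `Pic⁰`;
* if `T` is an endomorphism of `Pic⁰` which is computed on principal divisors by a "norm" `Nm`
  and `red (g g f * f ^ ℓ / Nm (g f)) = 1` for Gauss units `f`, then `g² - T g + ℓ = 0` on the
  `m`-torsion of `Pic⁰`.

No reduction of places or divisors is used.
-/

set_option autoImplicit false

namespace Fermat.Agent.GAL.ESDirect

open AlgebraicCurve Fermat.Agent.RED

variable {K F k Fb : Type*} [Field K] [Field F] [Algebra K F] [Field k] [Field Fb] [Algebra k Fb]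

/-- Function level Kummer injectivity (the case `γ = 1` of RED's `(K)`). -/
def KOne (R : RedData K F k Fb) (m : ℕ) : Prop :=
  ∀ x : R.O, R.red x = 1 → (∀ P : Place K F, (m : ℤ) ∣ P.ord (x : F)) → ∃ h : F, h ^ m = (x : F)

theorem ord_algebraMap_eq_zero (P : Place K F) (c : K) : P.ord (algebraMap K F c) = 0 := by
  rcases eq_or_ne c 0 with rfl | hc
  · simp
  have h1 : IsUnit (algebraMap K P.toValuationSubring c) := (Ne.isUnit hc).map _
  have h2 := P.ord_coe_unit h1.unit
  rwa [IsUnit.unit_spec, Place.coe_algebraMap] at h2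

theorem ord_pow' (P : Place K F) (f : F) (n : ℕ) : P.ord (f ^ n) = n * P.ord f := by
  have := P.ord_zpow f n
  rwa [zpow_natCast] at this

variable (R : RedData K F k Fb)

/-- A divisor `E` with `m • E = div w`, `red w = 1`, is principal. -/
theorem isPrincipal_of_red_eq_one {m : ℕ} (hm : m ≠ 0) (hK : KOne R m) (E : Divisor K F)
    (w : R.O) (hw : R.red w = 1) (hE : ∀ P : Place K F, (m : ℤ) * E P = P.ord (w : F)) :
    E.IsPrincipal := by
  obtain ⟨h, hh⟩ := hK w hw fun P => ⟨E P, (hE P).symm⟩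
  have hw0 : (w : F) ≠ 0 := by
    intro h0
    have : w = 0 := Subtype.ext h0
    rw [this, map_zero] at hw
    exact zero_ne_one hw
  have hh0 : h ≠ 0 := by
    rintro rfl
    rw [zero_pow hm] at hh
    exact hw0 hh.symm
  refine ⟨h, hh0, fun P => ?_⟩
  have h1 := hE P
  rw [← hh, ord_pow'] at h1
  exact mul_left_cancel₀ (by exact_mod_cast hm) h1

/-- Presentation of a torsion class by a Gauss unit. -/
theorem exists_unit_presentation {m : ℕ} (x : Pic0 K F) (hx : m • x = 0) :
    ∃ (D : Divisor.degZero (K := K) (F := F)) (f : R.O), x = Pic0.mk D ∧ R.red f ≠ 0 ∧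
      ∀ P : Place K F, (m : ℤ) * (D : Divisor K F) P = P.ord (f : F) := by
  obtain ⟨D, rfl⟩ := Pic0.mk_surjective x
  have h1 : (QuotientAddGroup.mk (m • D) : Pic0 K F) = 0 := hx
  rw [QuotientAddGroup.eq_zero_iff, AddSubgroup.mem_addSubgroupOf] at h1
  obtain ⟨f, hf, hD⟩ := h1
  obtain ⟨c, hc, hred⟩ := R.exists_scale f hf
  refine ⟨D, ⟨_, hc⟩, rfl, hred, fun P => ?_⟩
  have hc0 : algebraMap K F c ≠ 0 := by
    intro h0
    apply hred
    have : (⟨algebraMap K F c * f, hc⟩ : R.O) = 0 := Subtype.ext (by simp [h0])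
    rw [this, map_zero]
  show _ = P.ord (algebraMap K F c * f)
  rw [P.ord_mul hc0 hf, ord_algebraMap_eq_zero, zero_add, ← hD P]
  simp

theorem coe_ne_zero_of_red_ne_zero {f : R.O} (hf : R.red f ≠ 0) : (f : F) ≠ 0 := by
  intro h0
  apply hf
  have : f = 0 := Subtype.ext h0
  rw [this, map_zero]

theorem mk_eq_zero_of_isPrincipal (E : Divisor.degZero (K := K) (F := F))
    (hE : (E : Divisor K F).IsPrincipal) : Pic0.mk E = 0 := by
  show (QuotientAddGroup.mk E : Pic0 K F) = 0
  rw [QuotientAddGroup.eq_zero_iff, AddSubgroup.mem_addSubgroupOf]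
  exact hE

theorem ord_smul' (g : SemilinearAut K F) (P : Place K F) (f : F) :
    P.ord (g • f) = (g⁻¹ • P).ord f := by
  have h := SemilinearAut.ord_smul g (g⁻¹ • P) f
  rwa [smul_inv_smul] at h

/-- **Unramifiedness, abstract form.** -/
theorem smul_eq_self_of_torsion {m : ℕ} (hm : m ≠ 0) (hK : KOne R m) (g : SemilinearAut K F)
    (hgO : ∀ f : R.O, g • (f : F) ∈ R.O)
    (hgred : ∀ f : R.O, R.red ⟨g • (f : F), hgO f⟩ = R.red f)
    (x : Pic0 K F) (hx : m • x = 0) : g • x = x := by
  obtain ⟨D, f, rfl, hf, hD⟩ := exists_unit_presentation R x hx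
  have hf0 := coe_ne_zero_of_red_ne_zero R hf
  set fi : R.O := ⟨(f : F)⁻¹, R.inv_mem_of_red_ne_zero hf⟩ with hfi
  set w : R.O := ⟨g • (f : F), hgO f⟩ * fi with hw
  have hwred : R.red w = 1 := by
    rw [hw, map_mul, hgred, hfi, R.red_inv hf, mul_inv_cancel₀ hf]
  have hgf0 : g • (f : F) ≠ 0 := by simpa using hf0
  rw [SemilinearAut.pic0_smul_mk, ← sub_eq_zero]
  show Pic0.mk (SemilinearAut.degZeroSMulHom g D - D) = 0
  apply mk_eq_zero_of_isPrincipal
  refine isPrincipal_of_red_eq_one R hm hK _ w hwred fun P => ?_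
  show _ = P.ord (g • (f : F) * (f : F)⁻¹)
  rw [P.ord_mul hgf0 (inv_ne_zero hf0), P.ord_inv, ord_smul', ← hD, ← hD]
  simp only [AddSubgroupClass.coe_sub, SemilinearAut.coe_degZeroSMulHom, Finsupp.coe_sub,
    Pi.sub_apply, SemilinearAut.divisor_smul_apply]
  ring

/-- **Eichler–Shimura on torsion, abstract form.**  `T` is an endomorphism of `Pic⁰` induced by
`Td` on divisors, and `Td (div y) = div (Nm y)`. -/
theorem quadratic_of_torsion {m : ℕ} (hm : m ≠ 0) (hK : KOne R m) (g : SemilinearAut K F)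
    (ℓ : ℕ) (T : Pic0 K F →+ Pic0 K F)
    (Td : Divisor.degZero (K := K) (F := F) →+ Divisor.degZero (K := K) (F := F))
    (hT : ∀ D, T (Pic0.mk D) = Pic0.mk (Td D))
    (Nm : F → F)
    (hNm : ∀ (n : ℕ) (D : Divisor.degZero (K := K) (F := F)) (y : F), y ≠ 0 →
      (∀ P : Place K F, (n : ℤ) * (D : Divisor K F) P = P.ord y) →
        Nm y ≠ 0 ∧ ∀ P : Place K F, (n : ℤ) * (Td D : Divisor K F) P = P.ord (Nm y))
    (hcong : ∀ f : R.O, R.red f ≠ 0 →
      ∃ w : R.O, R.red w = 1 ∧ (w : F) * Nm (g • (f : F)) = g • g • (f : F) * (f : F) ^ ℓ)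
    (x : Pic0 K F) (hx : m • x = 0) : g • g • x - T (g • x) + ℓ • x = 0 := by
  obtain ⟨D, f, rfl, hf, hD⟩ := exists_unit_presentation R x hx
  have hf0 := coe_ne_zero_of_red_ne_zero R hf
  obtain ⟨w, hwred, hw⟩ := hcong f hf
  have hgf0 : g • (f : F) ≠ 0 := by simpa using hf0
  have hggf0 : g • g • (f : F) ≠ 0 := by simpa using hf0
  have hgD : ∀ P : Place K F,
      (m : ℤ) * (SemilinearAut.degZeroSMulHom g D : Divisor K F) P = P.ord (g • (f : F)) := by
    intro P
    rw [ord_smul', ← hD, SemilinearAut.coe_degZeroSMulHom, SemilinearAut.divisor_smul_apply]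
  obtain ⟨hN0, hNord⟩ := hNm m _ _ hgf0 hgD
  have hw0 : (w : F) ≠ 0 := coe_ne_zero_of_red_ne_zero R (by rw [hwred]; exact one_ne_zero)
  rw [SemilinearAut.pic0_smul_mk, SemilinearAut.pic0_smul_mk, hT]
  show Pic0.mk (SemilinearAut.degZeroSMulHom g (SemilinearAut.degZeroSMulHom g D)
    - Td (SemilinearAut.degZeroSMulHom g D) + ℓ • D) = 0
  apply mk_eq_zero_of_isPrincipal
  refine isPrincipal_of_red_eq_one R hm hK _ w hwred fun P => ?_
  have h1 := congrArg P.ord hw
  rw [P.ord_mul hw0 hN0, P.ord_mul hggf0 (pow_ne_zero _ hf0), ord_pow', ← hNord, ord_smul',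
    ord_smul', ← hD, ← hD] at h1
  have h2 : ((SemilinearAut.degZeroSMulHom g (SemilinearAut.degZeroSMulHom g D)
      - Td (SemilinearAut.degZeroSMulHom g D) + ℓ • D : Divisor.degZero (K := K) (F := F)) :
        Divisor K F) P = (D : Divisor K F) (g⁻¹ • g⁻¹ • P)
          - (Td (SemilinearAut.degZeroSMulHom g D) : Divisor K F) P
          + (ℓ : ℤ) * (D : Divisor K F) P := by
    rw [AddSubgroup.coe_add, AddSubgroupClass.coe_sub, AddSubgroupClass.coe_nsmul,
      Finsupp.add_apply, Finsupp.sub_apply, Finsupp.smul_apply, nsmul_eq_mul,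
      SemilinearAut.coe_degZeroSMulHom, SemilinearAut.coe_degZeroSMulHom,
      SemilinearAut.divisor_smul_apply, SemilinearAut.divisor_smul_apply]
  rw [h2]
  linarith

end Fermat.Agent.GAL.ESDirect
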