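import Fermat.Agent.GAL.ESDirect.Abstract
import Fermat.Agent.RED.Gauss.Bridge
import Fermat.Prelude.Def_EllipticCurve_FrobeniusTrace

/-!
# GAL / ESDirect : the decomposition group acts on the Gauss datum; unramifiedness on torsion

`esUnram` : if the function level Kummer injectivity `KOne (gaussData A N hA hℓN) m` holds, the
inertia group of `A` acts trivially on the `m`-torsion of `J₀(N)(ℚ̄)`.
-/

set_option autoImplicit false

namespace Fermat.Agent.GAL.ESDirect

open ModularCurve AlgebraicCurve Fermat.Agent.RED Fermat.Agent.RED.Gauss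

section General

variable {L : Type*} [Field L] {A : ValuationSubring L} {k : Type*} [Field k] (π : A →+* k)

theorem coeffMap_iota (s : L →+* L) (sA : A →+* A) (h1 : ∀ a : A, ((sA a : A) : L) = s a)
    (a : LaurentSeries A) : coeffMap s (iota A a) = iota A (coeffMap sA a) := by
  ext n
  simp only [iota, coeffMap_coeff]
  exact (h1 _).symm

theorem pi_coeffMap (sA : A →+* A) (sk : k →+* k) (h2 : ∀ a : A, π (sA a) = sk (π a))
    (a : LaurentSeries A) : pi π (coeffMap sA a) = coeffMap sk (pi π a) := by
  ext n
  simp only [pi, coeffMap_coeff]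
  exact h2 _

/-- A coefficientwise automorphism compatible with `A` and `π` preserves the big Gauss ring and
commutes with the reduction. -/
theorem exists_bigRed_coeffMap (s : L →+* L) (sA : A →+* A) (sk : k →+* k)
    (h1 : ∀ a : A, ((sA a : A) : L) = s a) (h2 : ∀ a : A, π (sA a) = sk (π a)) (y : bigO π) :
    ∃ h : coeffMap s (y : LaurentSeries L) ∈ bigO π,
      bigRed π ⟨_, h⟩ = coeffMap sk (bigRed π y) := by
  obtain ⟨a, b, hb, hab⟩ := (mem_bigO π).1 y.2
  have hb' : pi π (coeffMap sA b) ≠ 0 := by
    rw [pi_coeffMap π sA sk h2]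
    exact (map_ne_zero_iff _ (coeffMap sk).injective).mpr hb
  have hab' : coeffMap s (y : LaurentSeries L) * iota A (coeffMap sA b)
      = iota A (coeffMap sA a) := by
    rw [← coeffMap_iota s sA h1, ← coeffMap_iota s sA h1, ← map_mul, hab]
  have hmem : coeffMap s (y : LaurentSeries L) ∈ bigO π := (mem_bigO π).2 ⟨_, _, hb', hab'⟩
  refine ⟨hmem, ?_⟩
  rw [bigRed_eq π ⟨_, hmem⟩ hb' hab', bigRed_eq π y hb hab, pi_coeffMap π sA sk h2,
    pi_coeffMap π sA sk h2, map_div₀]

end General

section Decomposition

variable {K L : Type*} [Field K] [Field L] [Algebra K L] (A : ValuationSubring L)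

/-- the ring endomorphism of the residue field induced by an element of the decomposition group -/
noncomputable def resHom (τ : A.decompositionSubgroup K) :
    IsLocalRing.ResidueField A →+* IsLocalRing.ResidueField A :=
  MulSemiringAction.toRingHom (A.decompositionSubgroup K) (IsLocalRing.ResidueField A) τ

theorem resHom_apply (τ : A.decompositionSubgroup K) (x : IsLocalRing.ResidueField A) :
    resHom A τ x = τ • x := rfl

theorem exists_bigRed_decomposition (τ : A.decompositionSubgroup K)
    (y : bigO (IsLocalRing.residue A)) :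
    ∃ h : coeffMap ((τ : L ≃ₐ[K] L) : L →+* L) (y : LaurentSeries L) ∈
        bigO (IsLocalRing.residue A),
      bigRed (IsLocalRing.residue A) ⟨_, h⟩ =
        coeffMap (resHom A τ) (bigRed (IsLocalRing.residue A) y) :=
  exists_bigRed_coeffMap (IsLocalRing.residue A) ((τ : L ≃ₐ[K] L) : L →+* L)
    (MulSemiringAction.toRingHom (A.decompositionSubgroup K) A τ) (resHom A τ)
    (fun _ => rfl) (fun _ => rfl) y

theorem resHom_eq_id_of_mem_inertia (τ : A.decompositionSubgroup K)
    (hτ : τ ∈ A.inertiaSubgroup K) : resHom A τ = RingHom.id _ := by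
  have h1 : MulSemiringAction.toRingAut (A.decompositionSubgroup K) (IsLocalRing.ResidueField A) τ
      = 1 := hτ
  ext x
  have := congrArg (fun f => f x) h1
  exact this

theorem resHom_eq_frobenius {σ : L ≃ₐ[K] L} {ℓ : ℕ} [ExpChar (IsLocalRing.ResidueField A) ℓ]
    (h : A.IsFrobeniusAt σ ℓ) :
    resHom A ⟨σ, h.mem_decompositionSubgroup⟩ = frobenius (IsLocalRing.ResidueField A) ℓ := by
  ext x
  rw [resHom_apply, h.smul_residue_eq, frobenius_def]

end Decomposition

section Modular

local notation "Qbar" => AlgebraicClosure ℚ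
local notation "GQ" => (AlgebraicClosure ℚ ≃ₐ[ℚ] AlgebraicClosure ℚ)

variable (A : ValuationSubring Qbar) (N : ℕ) [NeZero N] {ℓ : ℕ} [Fact ℓ.Prime]
  (hA : A.LiesOverPrime ℓ) (hℓN : ¬ ℓ ∣ N)

/-- The coercion of the reduction of the Gauss datum is `bigRed`. -/
theorem coe_gaussData_red_eq (x : (gaussData A N hA hℓN).O) :
    (((gaussData A N hA hℓN).red x : modularFunctionFieldFullC (IsLocalRing.ResidueField A) N) :
      LaurentSeries (IsLocalRing.ResidueField A)) =
        bigRed (IsLocalRing.residue A) ⟨((x : modularFunctionFieldBar N) : LaurentSeries Qbar),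
          x.2⟩ := rfl

/-- The decomposition group preserves the Gauss ring. -/
theorem smul_mem_gaussData_O (τ : A.decompositionSubgroup ℚ) (f : (gaussData A N hA hℓN).O) :
    arithmeticGalois (modularFunctionFieldFull N) (τ : GQ) • (f : modularFunctionFieldBar N) ∈
      (gaussData A N hA hℓN).O :=
  (exists_bigRed_decomposition A τ ⟨_, f.2⟩).choose

/-- The decomposition group acts on the reductions through the residue field. -/
theorem coe_red_smul (τ : A.decompositionSubgroup ℚ) (f : (gaussData A N hA hℓN).O) :
    (((gaussData A N hA hℓN).red ⟨_, smul_mem_gaussData_O A N hA hℓN τ f⟩ :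
      modularFunctionFieldFullC (IsLocalRing.ResidueField A) N) :
      LaurentSeries (IsLocalRing.ResidueField A)) =
        coeffMap (resHom A τ) ((gaussData A N hA hℓN).red f :
          modularFunctionFieldFullC (IsLocalRing.ResidueField A) N) :=
  (exists_bigRed_decomposition A τ ⟨_, f.2⟩).choose_spec

/-- **Unramifiedness on torsion**, directly from the function level `(K_N)`. -/
theorem esUnram {m : ℕ} (hm : m ≠ 0) (hK : KOne (gaussData A N hA hℓN) m)
    (σ : GQ) (hσ : σ ∈ A.inertiaSubgroupIn ℚ) (x : JZero N) (hx : m • x = 0) : σ • x = x := by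
  obtain ⟨τ, hτ, rfl⟩ := Subgroup.mem_map.1 hσ
  rw [galois_smul_pic0_def]
  refine smul_eq_self_of_torsion (gaussData A N hA hℓN) hm hK _
    (smul_mem_gaussData_O A N hA hℓN τ) (fun f => ?_) x hx
  apply Subtype.ext
  have h := coe_red_smul A N hA hℓN τ f
  rw [resHom_eq_id_of_mem_inertia A τ hτ, coeffMap_id] at h
  exact h

end Modular

end Fermat.Agent.GAL.ESDirect
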